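import Fermat.Agent.S37.RINB.RiemannRT
import Fermat.Agent.S18.MODFF4186.Genus

/-!
# RIN bind, Riemann side (3): the two modular function fields

`Fb N = ℚ̄(X₀(N))`, `Ft A N = k(X₀(N))` (`k` the residue field of `A`, `ℓ ∤ N`): Riemann's inequality
on both with THE SAME constant `γ = g(Ft)` and Riemann's equality in large degree on `Ft`, in the
exact shape of the hypotheses `hRF`, `hRFb`, `hRFb'` of
`Fermat.Agent.RIN.exists_placeReduction_skel` (helper1601).  Inputs: frozen S18 `RT.lean`, `Red.lean`
(R5), and the genus inequality `MODFF4186.genus_le` (helper4186; uses Theorem T).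
-/

set_option autoImplicit false
set_option synthInstance.maxHeartbeats 400000

noncomputable section

namespace Fermat.Agent.S37.RINB

open ModularCurve AlgebraicCurve IntermediateField Fermat.Agent.S18

variable {ℓ : ℕ} [Fact ℓ.Prime] {A : ValuationSubring (AlgebraicClosure ℚ)} {N : ℕ} [NeZero N]

variable (N) in
theorem hasPrincipalDivisors_Fb : HasPrincipalDivisors (AlgebraicClosure ℚ) (Fb N) := by
  haveI := MODFF4186.finiteDimensional_jb N
  haveI := MODFF4186.isSeparable_jb N
  exact hasPrincipalDivisors_of_rt (jb N) (MODFF4186.transcendental_jb N)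

theorem hasPrincipalDivisors_Ft (hℓN : ¬ ℓ ∣ N) (hA : A.LiesOverPrime ℓ) :
    HasPrincipalDivisors (IsLocalRing.ResidueField A) (Ft A N) := by
  haveI := MODFF4186.isAlgClosed_residueField A
  haveI := finiteDimensional_Ft hℓN hA
  haveI := isSeparable_Ft hℓN hA
  exact hasPrincipalDivisors_of_rt (jt A N) (transcendental_jt hA)

variable (N) in
theorem nonempty_place_Fb : Nonempty (Place (AlgebraicClosure ℚ) (Fb N)) := by
  haveI := MODFF4186.finiteDimensional_jb N
  haveI := MODFF4186.isSeparable_jb N
  exact nonempty_place_of_rt (jb N) (MODFF4186.transcendental_jb N)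

theorem nonempty_place_Ft (hℓN : ¬ ℓ ∣ N) (hA : A.LiesOverPrime ℓ) :
    Nonempty (Place (IsLocalRing.ResidueField A) (Ft A N)) := by
  haveI := MODFF4186.isAlgClosed_residueField A
  haveI := finiteDimensional_Ft hℓN hA
  haveI := isSeparable_Ft hℓN hA
  exact nonempty_place_of_rt (jt A N) (transcendental_jt hA)

variable (A) in
theorem infinite_residueField : Infinite (IsLocalRing.ResidueField A) := by
  haveI := MODFF4186.isAlgClosed_residueField A
  infer_instance

/-- **Riemann's constants agree**: one `γ` for both fibres. -/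
theorem exists_riemann_constants (hℓN : ¬ ℓ ∣ N) (hA : A.LiesOverPrime ℓ) :
    ∃ γ : ℤ,
      (∀ D : Divisor (AlgebraicClosure ℚ) (Fb N),
        Divisor.degree D + 1 - γ ≤
          (Module.finrank (AlgebraicClosure ℚ) (riemannRochSpace D) : ℤ)) ∧
      (∀ E : Divisor (IsLocalRing.ResidueField A) (Ft A N),
        Divisor.degree E + 1 - γ ≤
          (Module.finrank (IsLocalRing.ResidueField A) (riemannRochSpace E) : ℤ)) ∧
      (∃ c : ℤ, ∀ E : Divisor (IsLocalRing.ResidueField A) (Ft A N), c ≤ Divisor.degree E →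
        (Module.finrank (IsLocalRing.ResidueField A) (riemannRochSpace E) : ℤ) ≤
          Divisor.degree E + 1 - γ) := by
  haveI := MODFF4186.isAlgClosed_residueField A
  haveI := MODFF4186.finiteDimensional_jb N
  haveI := MODFF4186.isSeparable_jb N
  haveI := finiteDimensional_Ft hℓN hA
  haveI := isSeparable_Ft hℓN hA
  obtain ⟨gb, hfinb, hdimb, -, -⟩ := rt_riemann (jb N) (MODFF4186.transcendental_jb N)
  obtain ⟨gt, hfint, hdimt, -, -⟩ := rt_riemann (jt A N) (transcendental_jt hA)
  have hle := MODFF4186.genus_le hℓN hA gb gt hfinb hdimb hfint hdimt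
  obtain ⟨-, hRb, -, -⟩ := riemann_of_rt (jb N) (MODFF4186.transcendental_jb N) gb hfinb hdimb
  obtain ⟨-, hRt, hEt, -⟩ := riemann_of_rt (jt A N) (transcendental_jt hA) gt hfint hdimt
  refine ⟨gt, fun D => ?_, hRt, hEt⟩
  have h1 := hRb D
  have h2 : (gb : ℤ) ≤ gt := by exact_mod_cast hle
  linarith

end Fermat.Agent.S37.RINB
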