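import Fermat.Agent.S18.T4649.GaussRing
import Fermat.Agent.RIN.Defs

/-!
# RIN bind (5): the Gauss valuation ring as a constant reduction (`RIN.IsConstRed`)

Abstract setting of the frozen S18 `Defs.lean`: `A` a valuation subring of `L`, `Fb ⊆ L((q))`,
`Ft ⊆ k((q))`, with the Gauss normal form `hGauss` (every `f ∈ Fbˣ` is `c * gen y₁ / gen y₂` with
admissible `y₁, y₂` of nonzero reduction).  On top of helper4649's `gaussRing` / `gaussRed`:
* `gaussO` : the Gauss ring as a `ValuationSubring Fb`, `gaussRedO : gaussO →+* Ft`;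
* `gaussRedO_gen` : compatibility with coefficientwise reduction of admissible series;
* `isConstRed_gaussO` : `RIN.IsConstRed L k gaussO gaussRedO`, given that `gaussRedO` is surjective
  (`hsurj`; for the modular fields: `Ft` is generated by reductions of admissible series).
-/

set_option autoImplicit false
set_option synthInstance.maxHeartbeats 400000

noncomputable section

namespace Fermat.Agent.S37.RINB

open ModularCurve AlgebraicCurve Fermat.Agent.S18

variable {L : Type*} [Field L] (A : ValuationSubring L)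
variable (Fb : IntermediateField L (LaurentSeries L))
variable (Ft : IntermediateField (IsLocalRing.ResidueField A)
  (LaurentSeries (IsLocalRing.ResidueField A)))
variable (hGauss : ∀ f : Fb, f ≠ 0 → ∃ (c : L) (y₁ y₂ : Adm A Fb Ft), c ≠ 0 ∧
  redOf A Fb Ft y₁ ≠ 0 ∧ redOf A Fb Ft y₂ ≠ 0 ∧
  f * genOf A Fb Ft y₂ = algebraMap L Fb c * genOf A Fb Ft y₁)

/-- The Gauss valuation subring of `Fb`. -/
def gaussO : ValuationSubring Fb :=
  { T4649.gaussRing A Fb Ft with
    mem_or_inv_mem' := T4649.gauss_val hGauss }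

theorem mem_gaussO {f : Fb} :
    f ∈ gaussO A Fb Ft hGauss ↔ ∃ φ, T4649.GaussRel A Fb Ft f φ := Iff.rfl

/-- The Gauss valuation subring, as a ring, is helper4649's Gauss ring. -/
def toGaussRing : gaussO A Fb Ft hGauss →+* T4649.gaussRing A Fb Ft where
  toFun x := ⟨x.1, x.2⟩
  map_one' := Subtype.ext rfl
  map_mul' _ _ := Subtype.ext rfl
  map_zero' := Subtype.ext rfl
  map_add' _ _ := Subtype.ext rfl

/-- The reduction map of the Gauss valuation subring. -/
def gaussRedO : gaussO A Fb Ft hGauss →+* Ft :=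
  (T4649.gaussRed A Fb Ft).comp (toGaussRing A Fb Ft hGauss)

theorem gaussRedO_eq {f : Fb} {φ : Ft} (h : T4649.GaussRel A Fb Ft f φ) :
    gaussRedO A Fb Ft hGauss ⟨f, φ, h⟩ = φ :=
  T4649.gaussRed_eq h

/-- Admissible series lie in the Gauss ring, and reduce coefficientwise. -/
theorem gaussRedO_gen (y : Adm A Fb Ft) :
    ∃ h : genOf A Fb Ft y ∈ gaussO A Fb Ft hGauss,
      gaussRedO A Fb Ft hGauss ⟨_, h⟩ = redOf A Fb Ft y :=
  ⟨⟨_, T4649.gaussRel_gen y⟩, gaussRedO_eq A Fb Ft hGauss (T4649.gaussRel_gen y)⟩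

theorem gaussRedO_const (a : A) :
    ∃ h : algebraMap L Fb (a : L) ∈ gaussO A Fb Ft hGauss,
      gaussRedO A Fb Ft hGauss ⟨_, h⟩ =
        algebraMap (IsLocalRing.ResidueField A) Ft (IsLocalRing.residue A a) := by
  have h := T4649.gaussRel_gen (A := A) (Fb := Fb) (Ft := Ft) (T4649.constAdm A Fb Ft a)
  rw [T4649.genHom_constAdm, T4649.redHom_constAdm] at h
  exact ⟨⟨_, h⟩, gaussRedO_eq A Fb Ft hGauss h⟩

/-- Elements with nonzero reduction are units of the Gauss ring. -/
theorem inv_mem_gaussO (x : gaussO A Fb Ft hGauss) (hx : gaussRedO A Fb Ft hGauss x ≠ 0) :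
    (x : Fb)⁻¹ ∈ gaussO A Fb Ft hGauss :=
  T4649.gauss_unit ⟨x.1, x.2⟩ hx

theorem gaussRedO_eq_zero_iff (x : gaussO A Fb Ft hGauss) :
    gaussRedO A Fb Ft hGauss x = 0 ↔ ¬ IsUnit x := by
  constructor
  · intro h0 hu
    have := hu.map (gaussRedO A Fb Ft hGauss)
    rw [h0] at this
    exact not_isUnit_zero this
  · intro hu
    by_contra hne
    apply hu
    have hinv := inv_mem_gaussO A Fb Ft hGauss x hne
    have hx0 : (x : Fb) ≠ 0 := by
      intro h0
      apply hne
      have : x = 0 := Subtype.ext h0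
      rw [this, map_zero]
    exact IsUnit.of_mul_eq_one ⟨(x : Fb)⁻¹, hinv⟩ (Subtype.ext (mul_inv_cancel₀ hx0))

/-- The Gauss valuation ring is a constant reduction in the sense of `RIN.IsConstRed`. -/
theorem isConstRed_gaussO (hsurj : Function.Surjective (gaussRedO A Fb Ft hGauss)) :
    Fermat.Agent.RIN.IsConstRed L (IsLocalRing.ResidueField A) (gaussO A Fb Ft hGauss)
      (gaussRedO A Fb Ft hGauss) where
  surj := hsurj
  ker := gaussRedO_eq_zero_iff A Fb Ft hGauss
  const := by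
    intro a ha
    by_cases haA : a ∈ A
    · obtain ⟨h, hred⟩ := gaussRedO_const A Fb Ft hGauss ⟨a, haA⟩
      exact ⟨IsLocalRing.residue A ⟨a, haA⟩, hred⟩
    · exfalso
      have haA' : a⁻¹ ∈ A := (A.mem_or_inv_mem a).resolve_left haA
      have ha0 : a ≠ 0 := fun h0 => haA (h0 ▸ A.zero_mem)
      obtain ⟨h, hred⟩ := gaussRedO_const A Fb Ft hGauss ⟨a⁻¹, haA'⟩
      have hres : IsLocalRing.residue A ⟨a⁻¹, haA'⟩ = 0 := by
        rw [IsLocalRing.residue_eq_zero_iff, IsLocalRing.mem_maximalIdeal, mem_nonunits_iff]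
        intro hu
        obtain ⟨b, hb⟩ := hu.exists_right_inv
        have hb' : a⁻¹ * (b : L) = 1 := congrArg Subtype.val hb
        have : (b : L) = a := by
          rw [← mul_one a, ← hb', ← mul_assoc, mul_inv_cancel₀ ha0, one_mul]
        exact haA (this ▸ b.2)
      rw [hres, map_zero] at hred
      have hnu := (gaussRedO_eq_zero_iff A Fb Ft hGauss _).mp hred
      apply hnu
      have hprod : algebraMap L Fb ((⟨a⁻¹, haA'⟩ : A) : L) * algebraMap L Fb a = 1 := by
        have e : ((⟨a⁻¹, haA'⟩ : A) : L) = a⁻¹ := rfl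
        rw [e, ← map_mul, inv_mul_cancel₀ ha0, map_one]
      exact IsUnit.of_mul_eq_one ⟨algebraMap L Fb a, ha⟩ (Subtype.ext hprod)
  const_surj := by
    intro c
    obtain ⟨a, rfl⟩ := IsLocalRing.residue_surjective c
    obtain ⟨h, hred⟩ := gaussRedO_const A Fb Ft hGauss a
    exact ⟨(a : L), h, hred⟩
  gauss := by
    intro f hf
    obtain ⟨c, y₁, y₂, hc, hy₁, hy₂, hfy⟩ := hGauss f hf
    have hc' : algebraMap L Fb c ≠ 0 := by rw [Ne, map_eq_zero]; exact hc
    have hrel : T4649.GaussRel A Fb Ft (algebraMap L Fb c⁻¹ * f)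
        (redOf A Fb Ft y₁ / redOf A Fb Ft y₂) := by
      refine ⟨y₁, y₂, hy₂, ?_, div_mul_cancel₀ _ hy₂⟩
      show algebraMap L Fb c⁻¹ * f * genOf A Fb Ft y₂ = genOf A Fb Ft y₁
      rw [mul_assoc, hfy, ← mul_assoc, ← map_mul, inv_mul_cancel₀ hc, map_one, one_mul]
    refine ⟨c⁻¹, inv_ne_zero hc, ⟨_, hrel⟩, ?_⟩
    rw [gaussRedO_eq A Fb Ft hGauss hrel]
    exact div_ne_zero hy₁ hy₂

end Fermat.Agent.S37.RINB
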