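import Fermat.Agent.S37.RINB.Glue
import Fermat.Agent.S37.RINB.GaussData
import Fermat.Agent.RIN.LatticeGauss1014

/-!
# RIN bind (6): the Gauss data for the modular fields and the leaf RI-R

`exists_isPlaceReductionModL_RIN hℓN hA : ∃ r, IsPlaceReductionModL A N r` from
* the frozen S18 statements (`RT.lean`, `Red.lean`, `T.lean` of origin/helper6262),
* helper4186's `MODFF4186` (`gauss_Fb`, `genus_le`, `jAdm`), helper4649's `T4649.GaussRing`,
* helper1601's abstract Deuring theorem `RIN.exists_placeReduction`,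
* helper1014's `LatticeGauss1014.hlat_of_finrank_le`.
-/

set_option autoImplicit false
set_option synthInstance.maxHeartbeats 400000

noncomputable section

namespace Fermat.Agent.S37.RINB

open ModularCurve AlgebraicCurve IntermediateField Fermat.Agent.S18

variable {ℓ : ℕ} [Fact ℓ.Prime] {A : ValuationSubring (AlgebraicClosure ℚ)} {N : ℕ} [NeZero N]

omit [Fact ℓ.Prime] [NeZero N] in
/-- `j(q^d)`, `d ∣ N`, as an admissible series. -/
theorem jd_mem_Adm {d : ℕ} [NeZero d] (hd : d ∣ N) :
    qExpand A d (jqModC A) ∈ Adm A (Fb N) (Ft A N) := by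
  rw [mem_Adm, coeffMap_qExpand, coeffMap_jqModC, coeffMap_qExpand, coeffMap_jqModC]
  refine ⟨?_, jqModCd_mem_full _ N hd⟩
  have h := coeffEmb_mem_laurentBaseChange (AlgebraicClosure ℚ) (jqd_mem_full N hd)
  rwa [coeffEmb, coeffMap_qExpand, ← jqModC_rat, coeffMap_jqModC] at h

/-- The reduction map of the Gauss ring is onto the special function field. -/
theorem gaussRedO_surjective (hℓN : ¬ ℓ ∣ N) (hA : A.LiesOverPrime ℓ) :
    Function.Surjective
      (gaussRedO A (Fb N) (Ft A N) (MODFF4186.gauss_Fb (N := N) hℓN hA)) := by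
  set hG := MODFF4186.gauss_Fb (N := N) hℓN hA
  have key : ∀ z : LaurentSeries (IsLocalRing.ResidueField A),
      z ∈ IntermediateField.adjoin (IsLocalRing.ResidueField A)
        (divisorExpansionsC (IsLocalRing.ResidueField A) N) →
      ∃ x : gaussO A (Fb N) (Ft A N) hG,
        ((gaussRedO A (Fb N) (Ft A N) hG x : Ft A N) :
          LaurentSeries (IsLocalRing.ResidueField A)) = z := by
    intro z hz
    induction hz using IntermediateField.adjoin_induction with
    | mem z hz =>
      obtain ⟨d, hne, hd, rfl⟩ := hz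
      haveI := hne
      obtain ⟨h, hred⟩ := gaussRedO_gen A (Fb N) (Ft A N) hG
        ⟨qExpand A d (jqModC A), jd_mem_Adm hd⟩
      refine ⟨⟨_, h⟩, ?_⟩
      rw [hred]
      show coeffMap (IsLocalRing.residue A) (qExpand A d (jqModC A)) = _
      rw [coeffMap_qExpand, coeffMap_jqModC]
    | algebraMap c =>
      obtain ⟨a, rfl⟩ := IsLocalRing.residue_surjective c
      obtain ⟨h, hred⟩ := gaussRedO_const A (Fb N) (Ft A N) hG a
      refine ⟨⟨_, h⟩, ?_⟩
      rw [hred]
      rfl
    | add z w _ _ hz hw =>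
      obtain ⟨x, rfl⟩ := hz
      obtain ⟨y, rfl⟩ := hw
      exact ⟨x + y, by rw [map_add]; rfl⟩
    | inv z _ hz =>
      obtain ⟨x, rfl⟩ := hz
      by_cases hx : gaussRedO A (Fb N) (Ft A N) hG x = 0
      · refine ⟨0, ?_⟩
        rw [map_zero, hx]
        simp
      · have hinv := inv_mem_gaussO A (Fb N) (Ft A N) hG x hx
        have hx0 : (x : Fb N) ≠ 0 := by
          intro h0
          apply hx
          have : x = 0 := Subtype.ext h0
          rw [this, map_zero]
        refine ⟨⟨(x : Fb N)⁻¹, hinv⟩, ?_⟩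
        have h1 : gaussRedO A (Fb N) (Ft A N) hG x *
            gaussRedO A (Fb N) (Ft A N) hG ⟨(x : Fb N)⁻¹, hinv⟩ = 1 := by
          rw [← map_mul]
          have : x * ⟨(x : Fb N)⁻¹, hinv⟩ = 1 := Subtype.ext (mul_inv_cancel₀ hx0)
          rw [this, map_one]
        rw [eq_inv_of_mul_eq_one_right h1]
        rfl
    | mul z w _ _ hz hw =>
      obtain ⟨x, rfl⟩ := hz
      obtain ⟨y, rfl⟩ := hw
      exact ⟨x * y, by rw [map_mul]; rfl⟩
  intro φ
  obtain ⟨x, hx⟩ := key φ φ.2
  exact ⟨x, Subtype.ext hx⟩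

/-- **Leaf RI-R via the abstract Deuring theorem.** -/
theorem exists_isPlaceReductionModL_RIN (hℓN : ¬ ℓ ∣ N) (hA : A.LiesOverPrime ℓ) :
    ∃ r : Place (AlgebraicClosure ℚ) (modularFunctionFieldBar N) →
        Place (IsLocalRing.ResidueField A) (modularFunctionFieldFullC (IsLocalRing.ResidueField A) N),
      IsPlaceReductionModL A N r := by
  set hG := MODFF4186.gauss_Fb (N := N) hℓN hA
  have hO := isConstRed_gaussO A (Fb N) (Ft A N) hG (gaussRedO_surjective hℓN hA)
  obtain ⟨hx, hredx⟩ := gaussRedO_gen A (Fb N) (Ft A N) hG (MODFF4186.jAdm A N)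
  rw [Fermat.Agent.S18.MODFF4186.redOf_jAdm] at hredx
  have hx' : jb N ∈ gaussO A (Fb N) (Ft A N) hG := by
    rw [← MODFF4186.genOf_jAdm A N]; exact hx
  have hredx' : gaussRedO A (Fb N) (Ft A N) hG ⟨jb N, hx'⟩ = jt A N := by
    rw [← hredx]
    congr 1
    exact Subtype.ext (MODFF4186.genOf_jAdm A N).symm
  haveI := MODFF4186.finiteDimensional_jb N
  haveI : FiniteDimensional (IsLocalRing.ResidueField A)⟮gaussRedO A (Fb N) (Ft A N) hG ⟨jb N, hx'⟩⟯
      (Ft A N) := by
    rw [hredx']
    exact finiteDimensional_Ft hℓN hA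
  have hlat := Fermat.Agent.RIN.LatticeGauss1014.hlat_of_finrank_le hO (jb N) hx'
    (by rw [hredx']; exact transcendental_jt hA)
    (by rw [hredx']; exact (finrank_Ft (N := N) hℓN hA).ge)
  exact exists_isPlaceReductionModL_of_gauss hℓN hA _ _ hO
    (fun y hy hyk _ => gaussRedO_gen A (Fb N) (Ft A N) hG ⟨y, hy, hyk⟩) hlat

end Fermat.Agent.S37.RINB
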