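import Fermat.Agent.S37.RINB.RiemannMod
import Fermat.Agent.RIN.Main

/-!
# RIN bind (4): the S37 leaf RI-R from the abstract Deuring theorem + Gauss data

`exists_isPlaceReductionModL_of_gauss`: the frozen leaf `exists_isPlaceReductionModL` of the S37 tree
from
* `Fermat.Agent.RIN.exists_placeReduction` (helper1601's abstract Deuring theorem, `RIN/Main.lean`),
* the Riemann side (`RiemannMod.lean`: frozen S18 RT + R5 + `MODFF4186.genus_le`),
* **Gauss data**: a valuation subring `O` of `Fb N` with residue map `red : O →+* Ft A N` which is a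
  constant reduction (`RIN.IsConstRed`), is compatible with coefficientwise reduction of integral
  `q`-expansions (`hcompat`), and has the lattice property (`hlat`).
-/

set_option autoImplicit false
set_option synthInstance.maxHeartbeats 400000

noncomputable section

namespace Fermat.Agent.S37.RINB

open ModularCurve AlgebraicCurve IntermediateField Fermat.Agent.S18

variable {ℓ : ℕ} [Fact ℓ.Prime] {A : ValuationSubring (AlgebraicClosure ℚ)} {N : ℕ} [NeZero N]

omit [NeZero N] in
/-- The place map of the abstract Deuring theorem satisfies the Prelude predicate. -/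
theorem isPlaceReductionModL_of_compat
    (O : ValuationSubring (Fb N)) (red : O →+* Ft A N)
    (hcompat : ∀ (y : LaurentSeries A) (hy : coeffMap A.subtype y ∈ Fb N)
      (hyk : coeffMap (IsLocalRing.residue A) y ∈ Ft A N),
      coeffMap (IsLocalRing.residue A) y ≠ 0 →
      ∃ h : (⟨coeffMap A.subtype y, hy⟩ : Fb N) ∈ O,
        red ⟨_, h⟩ = ⟨coeffMap (IsLocalRing.residue A) y, hyk⟩)
    (r : Place (AlgebraicClosure ℚ) (Fb N) → Place (IsLocalRing.ResidueField A) (Ft A N))
    (hdeg : ∀ P, (r P).deg = P.deg)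
    (hr : ∀ (y : Fb N) (hy : y ∈ O), red ⟨y, hy⟩ ≠ 0 →
      ∀ D : Divisor (AlgebraicClosure ℚ) (Fb N), (∀ P, D P = P.ord y) →
        ∀ Q, Finsupp.mapDomain r D Q = Q.ord (red ⟨y, hy⟩)) :
    IsPlaceReductionModL A N r := by
  refine ⟨hdeg, fun y hy hyk hne D hD Q => ?_⟩
  obtain ⟨h, hred⟩ := hcompat y hy hyk hne
  have hne' : red ⟨_, h⟩ ≠ 0 := by
    rw [hred]
    intro h0
    exact hne (congrArg Subtype.val h0)
  have := hr _ h hne' D hD Q
  rw [hred] at this
  exact this

/-- **The leaf RI-R from Gauss data.** -/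
theorem exists_isPlaceReductionModL_of_gauss (hℓN : ¬ ℓ ∣ N) (hA : A.LiesOverPrime ℓ)
    (O : ValuationSubring (Fb N)) (red : O →+* Ft A N)
    (hO : Fermat.Agent.RIN.IsConstRed (AlgebraicClosure ℚ) (IsLocalRing.ResidueField A) O red)
    (hcompat : ∀ (y : LaurentSeries A) (hy : coeffMap A.subtype y ∈ Fb N)
      (hyk : coeffMap (IsLocalRing.residue A) y ∈ Ft A N),
      coeffMap (IsLocalRing.residue A) y ≠ 0 →
      ∃ h : (⟨coeffMap A.subtype y, hy⟩ : Fb N) ∈ O,
        red ⟨_, h⟩ = ⟨coeffMap (IsLocalRing.residue A) y, hyk⟩)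
    (hlat : ∀ M : Submodule (AlgebraicClosure ℚ) (Fb N), FiniteDimensional (AlgebraicClosure ℚ) M →
      ∃ b : Fin (Module.finrank (AlgebraicClosure ℚ) M) → Fb N, ∃ hb : ∀ i, b i ∈ O,
        (∀ i, b i ∈ M) ∧
          LinearIndependent (IsLocalRing.ResidueField A) (fun i => red ⟨b i, hb i⟩)) :
    ∃ r : Place (AlgebraicClosure ℚ) (modularFunctionFieldBar N) →
        Place (IsLocalRing.ResidueField A) (modularFunctionFieldFullC (IsLocalRing.ResidueField A) N),
      IsPlaceReductionModL A N r := by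
  haveI := infinite_residueField A
  haveI := nonempty_place_Fb N
  haveI := nonempty_place_Ft (N := N) hℓN hA
  haveI := hasPrincipalDivisors_Fb N
  haveI := hasPrincipalDivisors_Ft (N := N) hℓN hA
  obtain ⟨γ, hRF, hRFb, hRFb'⟩ := exists_riemann_constants (N := N) hℓN hA
  obtain ⟨r, hdeg, hr⟩ := Fermat.Agent.RIN.exists_placeReduction O red hO
    (fun P => MODFF4186.deg_Fb P) (MODFF4186.deg_Ft hℓN hA) γ hRF hRFb hRFb' hlat
  exact ⟨r, isPlaceReductionModL_of_compat O red hcompat r hdeg hr⟩

end Fermat.Agent.S37.RINB
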