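import Mathlib
import Fermat.Prelude.Def_AlgebraicCurve_Repartitions
import Fermat.Agent.S24.A564.PlaceBasic

set_option autoImplicit false

noncomputable section

namespace Fermat.Agent.S37.RINB

open AlgebraicCurve Fermat.Agent.S24.A564

variable {K F : Type*} [Field K] [Field F] [Algebra K F]

/-- Multiplication by a nonzero function, as a `K`-linear automorphism of `F`. -/
def mulEquiv (z : F) (hz : z ≠ 0) : F ≃ₗ[K] F where
  toFun f := z * f
  invFun f := z⁻¹ * f
  map_add' := mul_add z
  map_smul' c f := by simp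
  left_inv f := by simp [← mul_assoc, inv_mul_cancel₀ hz]
  right_inv f := by simp [← mul_assoc, mul_inv_cancel₀ hz]

theorem mul_mem_rrSpace_iff {D Z : Divisor K F} {z : F} (hz : z ≠ 0) (hZ : ∀ v, Z v = v.ord z)
    {f : F} : z * f ∈ riemannRochSpace D ↔ f ∈ riemannRochSpace (D + Z) := by
  rw [mem_riemannRochSpace_iff, mem_riemannRochSpace_iff]
  refine forall_congr' fun v => ?_
  rcases eq_or_ne f 0 with rfl | hf
  · simp
  · rw [v.ord_mul hz hf, Finsupp.add_apply, hZ v]
    constructor
    · rintro (h | h)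
      · exact absurd h (mul_ne_zero hz hf)
      · right; omega
    · rintro (h | h)
      · exact absurd h hf
      · right; omega

theorem map_mulEquiv_rrSpace {D Z : Divisor K F} {z : F} (hz : z ≠ 0) (hZ : ∀ v, Z v = v.ord z) :
    (riemannRochSpace (D + Z)).map (mulEquiv (K := K) z hz).toLinearMap = riemannRochSpace D := by
  ext x
  constructor
  · rintro ⟨f, hf, rfl⟩
    exact (mul_mem_rrSpace_iff hz hZ).mpr hf
  · intro hx
    refine ⟨z⁻¹ * x, ?_, ?_⟩
    · apply (mul_mem_rrSpace_iff hz hZ).mp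
      rwa [← mul_assoc, mul_inv_cancel₀ hz, one_mul]
    · show z * (z⁻¹ * x) = x
      rw [← mul_assoc, mul_inv_cancel₀ hz, one_mul]

theorem finrank_rrSpace_add_principal {D Z : Divisor K F} {z : F} (hz : z ≠ 0)
    (hZ : ∀ v, Z v = v.ord z) :
    Module.finrank K (riemannRochSpace (D + Z)) = Module.finrank K (riemannRochSpace D) := by
  rw [← map_mulEquiv_rrSpace (D := D) hz hZ]
  exact ((mulEquiv (K := K) z hz).finrank_map_eq _).symm

theorem finite_rrSpace_add_principal {D Z : Divisor K F} {z : F} (hz : z ≠ 0)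
    (hZ : ∀ v, Z v = v.ord z) (h : Module.Finite K (riemannRochSpace D)) :
    Module.Finite K (riemannRochSpace (D + Z)) := by
  rw [← map_mulEquiv_rrSpace (D := D) hz hZ] at h
  exact Module.Finite.equiv ((mulEquiv (K := K) z hz).submoduleMap (riemannRochSpace (D + Z))).symm

section OnePoint

variable (v : Place K F)

theorem ord_eq_zero_iff_isUnit (a : v.toValuationSubring) (ha : a ≠ 0) :
    v.ord (a : F) = 0 ↔ IsUnit a := by
  rw [← v.adicValuation_coe_eq_one_iff]
  have ha' : (a : F) ≠ 0 := fun h => ha (Subtype.ext h)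
  rw [v.adicValuation_eq_exp_neg_ord ha', ← WithZero.exp_zero, WithZero.exp_inj]
  omega

theorem leadAux_mem (D : Divisor K F) (π : v.toValuationSubring) (hπ : Irreducible π)
    (f : F) (hf : f ∈ riemannRochSpace (D + Finsupp.single v 1)) :
    (π : F) ^ (D v + 1) * f ∈ v.toValuationSubring := by
  rcases eq_or_ne f 0 with rfl | hf0
  · rw [mul_zero]; exact zero_mem _
  apply SO.Place_mem_of_ord_nonneg
  have hπ0 : (π : F) ≠ 0 := fun h => hπ.ne_zero (Subtype.ext h)
  rw [v.ord_mul (zpow_ne_zero _ hπ0) hf0, v.ord_zpow, v.ord_coe_irreducible hπ]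
  have h := (mem_riemannRochSpace_iff.mp hf v).resolve_left hf0
  rw [Finsupp.add_apply, Finsupp.single_eq_same] at h
  omega

/-- The "leading coefficient" map `L(D + v) → κ(v)`. -/
def leadMap (D : Divisor K F) (π : v.toValuationSubring) (hπ : Irreducible π) :
    ↥(riemannRochSpace (D + Finsupp.single v 1)) →ₗ[K] v.ResidueField where
  toFun f := IsLocalRing.residue _ ⟨(π : F) ^ (D v + 1) * (f : F), leadAux_mem v D π hπ f f.2⟩
  map_add' f g := by
    rw [← map_add]
    congr 1
    apply Subtype.ext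
    show (π : F) ^ (D v + 1) * ((f : F) + (g : F)) = (π : F) ^ (D v + 1) * (f : F) + (π : F) ^ (D v + 1) * (g : F)
    ring
  map_smul' c f := by
    rw [RingHom.id_apply, Algebra.smul_def]
    show _ = IsLocalRing.residue _ (algebraMap K v.toValuationSubring c) * _
    rw [← map_mul]
    congr 1
    apply Subtype.ext
    show (π : F) ^ (D v + 1) * (c • (f : F)) = algebraMap K F c * ((π : F) ^ (D v + 1) * (f : F))
    rw [Algebra.smul_def]
    ring

theorem ker_leadMap (D : Divisor K F) (π : v.toValuationSubring) (hπ : Irreducible π) :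
    LinearMap.ker (leadMap v D π hπ) =
      (riemannRochSpace D).comap (riemannRochSpace (D + Finsupp.single v 1)).subtype := by
  ext f
  rw [LinearMap.mem_ker, Submodule.mem_comap, Submodule.subtype_apply]
  have hπ0 : (π : F) ≠ 0 := fun h => hπ.ne_zero (Subtype.ext h)
  show IsLocalRing.residue _ (⟨(π : F) ^ (D v + 1) * (f : F), leadAux_mem v D π hπ f f.2⟩ :
    v.toValuationSubring) = 0 ↔ _
  rw [IsLocalRing.residue_eq_zero_iff, IsLocalRing.mem_maximalIdeal, mem_nonunits_iff]
  rcases eq_or_ne (f : F) 0 with hf0 | hf0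
  · have h0 : (⟨(π : F) ^ (D v + 1) * (f : F), leadAux_mem v D π hπ f f.2⟩ :
        v.toValuationSubring) = 0 := Subtype.ext (by
      show (π : F) ^ (D v + 1) * (f : F) = 0
      rw [hf0, mul_zero])
    rw [h0, hf0]
    simp only [zero_mem, iff_true]
    exact not_isUnit_zero
  · have hne : (⟨(π : F) ^ (D v + 1) * (f : F), leadAux_mem v D π hπ f f.2⟩ :
        v.toValuationSubring) ≠ 0 := by
      intro h
      exact mul_ne_zero (zpow_ne_zero _ hπ0) hf0 (congrArg Subtype.val h)
    rw [← ord_eq_zero_iff_isUnit v _ hne]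
    show ¬ v.ord ((π : F) ^ (D v + 1) * (f : F)) = 0 ↔ _
    rw [v.ord_mul (zpow_ne_zero _ hπ0) hf0, v.ord_zpow, v.ord_coe_irreducible hπ,
      mem_riemannRochSpace_iff]
    have hf := mem_riemannRochSpace_iff.mp f.2
    constructor
    · intro h w
      right
      have hw := (hf w).resolve_left hf0
      by_cases hwv : w = v
      · subst hwv
        rw [Finsupp.add_apply, Finsupp.single_eq_same] at hw
        omega
      · rw [Finsupp.add_apply, Finsupp.single_eq_of_ne hwv, add_zero] at hw
        exact hw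
    · intro h
      have hv := (h v).resolve_left hf0
      omega

theorem rrSpace_mono {D D' : Divisor K F} (h : D ≤ D') :
    riemannRochSpace D ≤ riemannRochSpace D' := fun f hf v =>
  (hf v).trans (WithZero.exp_le_exp.mpr (Finsupp.le_def.mp h v))

theorem le_add_single (D : Divisor K F) : D ≤ D + Finsupp.single v 1 := by
  intro w
  rw [Finsupp.add_apply]
  by_cases hwv : w = v
  · subst hwv; rw [Finsupp.single_eq_same]; omega
  · rw [Finsupp.single_eq_of_ne hwv, add_zero]

/-- Adding one point of degree one raises the dimension of `L(D)` by at most one. -/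
theorem rrSpace_add_single (hdeg : v.deg = 1) (D : Divisor K F)
    (h : Module.Finite K (riemannRochSpace D)) :
    Module.Finite K (riemannRochSpace (D + Finsupp.single v 1)) ∧
      Module.finrank K (riemannRochSpace (D + Finsupp.single v 1)) ≤
        Module.finrank K (riemannRochSpace D) + 1 := by
  obtain ⟨π, hπ⟩ := IsDiscreteValuationRing.exists_irreducible v.toValuationSubring
  have hle : riemannRochSpace D ≤ riemannRochSpace (D + Finsupp.single v 1) :=
    rrSpace_mono (le_add_single v D)
  have hκ : Module.Finite K v.ResidueField :=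
    Module.finite_of_finrank_pos (by rw [show Module.finrank K v.ResidueField = 1 from hdeg]; omega)
  have e := Submodule.comapSubtypeEquivOfLe hle
  rw [← ker_leadMap v D π hπ] at e
  have hker : Module.Finite K (LinearMap.ker (leadMap v D π hπ)) := Module.Finite.equiv e.symm
  have hquot : Module.Finite K
      (↥(riemannRochSpace (D + Finsupp.single v 1)) ⧸ LinearMap.ker (leadMap v D π hπ)) :=
    Module.Finite.equiv (leadMap v D π hπ).quotKerEquivRange.symm
  have hfin : Module.Finite K (riemannRochSpace (D + Finsupp.single v 1)) :=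
    Module.Finite.of_submodule_quotient (LinearMap.ker (leadMap v D π hπ))
  refine ⟨hfin, ?_⟩
  have h1 := LinearMap.finrank_range_add_finrank_ker (leadMap v D π hπ)
  have h2 : Module.finrank K (LinearMap.range (leadMap v D π hπ)) ≤ 1 := by
    have := Submodule.finrank_le (LinearMap.range (leadMap v D π hπ))
    rwa [show Module.finrank K v.ResidueField = 1 from hdeg] at this
  have h3 : Module.finrank K (LinearMap.ker (leadMap v D π hπ)) =
      Module.finrank K (riemannRochSpace D) := e.finrank_eq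
  omega

end OnePoint

section Induction

variable (hdeg : ∀ P : Place K F, P.deg = 1)
include hdeg

theorem degree_eq_sum (E : Divisor K F) : Divisor.degree E = ∑ P ∈ E.support, E P := by
  show (Finsupp.liftAddHom fun v : Place K F => AddMonoidHom.mulRight (v.deg : ℤ)) E = _
  rw [Finsupp.liftAddHom_apply, Finsupp.sum]
  refine Finset.sum_congr rfl fun P _ => ?_
  simp [hdeg P]

theorem degree_nonneg_of_nonneg {E : Divisor K F} (hE : ∀ P, 0 ≤ E P) : 0 ≤ Divisor.degree E := by
  rw [degree_eq_sum hdeg]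
  exact Finset.sum_nonneg fun P _ => hE P

theorem exists_pos_of_degree_pos {E : Divisor K F} (h : 0 < Divisor.degree E) : ∃ P, 0 < E P := by
  by_contra hcon
  push Not at hcon
  rw [degree_eq_sum hdeg] at h
  exact absurd h (not_lt.mpr (Finset.sum_nonpos fun P _ => hcon P))

theorem eq_of_le_of_degree_sub_eq_zero {D D' : Divisor K F} (hle : D ≤ D')
    (h : Divisor.degree (D' - D) = 0) : D' = D := by
  have hE : ∀ P, 0 ≤ (D' - D) P := fun P => by
    rw [Finsupp.sub_apply]; have := hle P; omega
  rw [degree_eq_sum hdeg] at h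
  have h0 := (Finset.sum_eq_zero_iff_of_nonneg (fun P _ => hE P)).mp h
  ext P
  by_cases hP : P ∈ (D' - D).support
  · have := h0 P hP
    rw [Finsupp.sub_apply] at this
    omega
  · rw [Finsupp.notMem_support_iff, Finsupp.sub_apply] at hP
    omega

/-- `l(D') ≤ l(D) + deg(D' - D)` for `D ≤ D'`. -/
theorem rrSpace_le_of_le : ∀ (k : ℕ) (D D' : Divisor K F), D ≤ D' →
    Divisor.degree (D' - D) = k → Module.Finite K (riemannRochSpace D) →
    Module.Finite K (riemannRochSpace D') ∧
      Module.finrank K (riemannRochSpace D') ≤ Module.finrank K (riemannRochSpace D) + k := by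
  intro k
  induction k with
  | zero =>
    intro D D' hle hk hfin
    have h := eq_of_le_of_degree_sub_eq_zero hdeg hle (by simpa using hk)
    subst h
    exact ⟨hfin, le_rfl⟩
  | succ k ih =>
    intro D D' hle hk hfin
    obtain ⟨P, hP⟩ := exists_pos_of_degree_pos hdeg (E := D' - D) (by rw [hk]; positivity)
    rw [Finsupp.sub_apply] at hP
    have hle' : D ≤ D' - Finsupp.single P 1 := by
      intro w
      rw [Finsupp.sub_apply]
      by_cases hw : w = P
      · subst hw; rw [Finsupp.single_eq_same]; omega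
      · rw [Finsupp.single_eq_of_ne hw, sub_zero]; exact hle w
    have hk' : Divisor.degree (D' - Finsupp.single P 1 - D) = k := by
      have : D' - Finsupp.single P 1 - D = (D' - D) - Finsupp.single P 1 := by abel
      rw [this, map_sub, hk, Divisor.degree_single, hdeg P]
      push_cast
      ring
    obtain ⟨h1, h2⟩ := ih D (D' - Finsupp.single P 1) hle' hk' hfin
    obtain ⟨h3, h4⟩ := rrSpace_add_single P (hdeg P) (D' - Finsupp.single P 1) h1
    rw [sub_add_cancel] at h3 h4
    exact ⟨h3, by omega⟩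

theorem rrSpace_le_of_le' {D D' : Divisor K F} (hle : D ≤ D')
    (hfin : Module.Finite K (riemannRochSpace D)) :
    Module.Finite K (riemannRochSpace D') ∧
      (Module.finrank K (riemannRochSpace D') : ℤ) ≤
        Module.finrank K (riemannRochSpace D) + Divisor.degree (D' - D) := by
  have hE : ∀ P, 0 ≤ (D' - D) P := fun P => by
    rw [Finsupp.sub_apply]; have := hle P; omega
  have h0 := degree_nonneg_of_nonneg hdeg hE
  obtain ⟨k, hk⟩ := Int.eq_ofNat_of_zero_le h0
  obtain ⟨h1, h2⟩ := rrSpace_le_of_le hdeg k D D' hle hk hfin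
  refine ⟨h1, ?_⟩
  rw [hk]
  exact_mod_cast h2

end Induction

section Const

variable (v : Place K F)

theorem ord_sub_const_of_neg {x : F} (c : K) (h : v.ord x < 0) :
    v.ord (x - algebraMap K F c) = v.ord x := by
  have hx0 : x ≠ 0 := fun h0 => by rw [h0, v.ord_zero] at h; omega
  have hc := SO.Place_ord_algebraMap v c
  have hxc : x - algebraMap K F c ≠ 0 := by
    intro h0
    rw [sub_eq_zero.mp h0, hc] at h
    omega
  have h1 := SO.Place_ord_add_ge v (f := x) (g := -algebraMap K F c) (by rwa [← sub_eq_add_neg])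
  have h2 := SO.Place_ord_add_ge v (f := x - algebraMap K F c) (g := algebraMap K F c)
    (by rwa [sub_add_cancel])
  rw [← sub_eq_add_neg] at h1
  rw [sub_add_cancel] at h2
  have hneg : v.ord (-algebraMap K F c) = 0 := by
    rw [← map_neg]; exact SO.Place_ord_algebraMap v (-c)
  rw [hneg] at h1
  rw [hc] at h2
  rcases le_total (v.ord (x - algebraMap K F c)) 0 with h3 | h3
  · rw [min_eq_left h3] at h2
    rw [min_eq_left h.le] at h1
    omega
  · rw [min_eq_right h3] at h2
    omega

theorem ord_sub_const_nonneg {x : F} (c : K) (h : 0 ≤ v.ord x) :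
    0 ≤ v.ord (x - algebraMap K F c) := by
  apply SO.Place_ord_nonneg_of_mem
  exact sub_mem (SO.Place_mem_of_ord_nonneg v h) (v.algebraMap_mem' c)

theorem exists_const_sub_ord_pos (hdeg : v.deg = 1) {x : F} (h : 0 ≤ v.ord x)
    (hx : ∀ c : K, x ≠ algebraMap K F c) : ∃ c : K, 0 < v.ord (x - algebraMap K F c) := by
  have hxm := SO.Place_mem_of_ord_nonneg v h
  obtain ⟨w, hw0, hw⟩ := (finrank_eq_one_iff' (K := K) (V := v.ResidueField)).mp hdeg
  obtain ⟨c1, hc1⟩ := hw 1
  obtain ⟨c2, hc2⟩ := hw (IsLocalRing.residue _ (⟨x, hxm⟩ : v.toValuationSubring))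
  have hc10 : c1 ≠ 0 := by
    rintro rfl
    rw [zero_smul] at hc1
    exact zero_ne_one hc1
  refine ⟨c2 * c1⁻¹, ?_⟩
  have hmem : x - algebraMap K F (c2 * c1⁻¹) ∈ v.toValuationSubring :=
    sub_mem hxm (v.algebraMap_mem' _)
  have hres : IsLocalRing.residue _ (⟨x - algebraMap K F (c2 * c1⁻¹), hmem⟩ :
      v.toValuationSubring) = 0 := by
    have e : (⟨x - algebraMap K F (c2 * c1⁻¹), hmem⟩ : v.toValuationSubring) =
        ⟨x, hxm⟩ - algebraMap K v.toValuationSubring (c2 * c1⁻¹) := Subtype.ext rfl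
    rw [e, map_sub, ← hc2]
    have e2 : IsLocalRing.residue _ (algebraMap K v.toValuationSubring (c2 * c1⁻¹)) =
        (c2 * c1⁻¹) • (1 : v.ResidueField) := by
      rw [Algebra.smul_def, mul_one]; rfl
    rw [e2, ← hc1, smul_smul, mul_assoc, inv_mul_cancel₀ hc10, mul_one, sub_self]
  rw [IsLocalRing.residue_eq_zero_iff, IsLocalRing.mem_maximalIdeal, mem_nonunits_iff] at hres
  have hne : (⟨x - algebraMap K F (c2 * c1⁻¹), hmem⟩ : v.toValuationSubring) ≠ 0 := by
    intro h0
    exact hx _ (sub_eq_zero.mp (congrArg Subtype.val h0))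
  have h1 := (ord_eq_zero_iff_isUnit v _ hne).not.mpr hres
  have h2 := SO.Place_ord_nonneg_of_mem v hmem
  have h3 : v.ord (x - algebraMap K F (c2 * c1⁻¹)) ≠ 0 := h1
  omega

end Const

section Dominated

/-- `D` is dominated by `m (x)_∞` up to a principal divisor of degree zero. -/
def Dominated (Dinf : Divisor K F) (D : Divisor K F) : Prop :=
  ∃ (m : ℕ) (Z : Divisor K F) (z : F), z ≠ 0 ∧ (∀ P, Z P = P.ord z) ∧ Divisor.degree Z = 0 ∧
    D ≤ m • Dinf + Z

variable {Dinf : Divisor K F}

theorem dominated_zero : Dominated Dinf (0 : Divisor K F) :=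
  ⟨0, 0, 1, one_ne_zero, fun P => by simp, map_zero _, by simp⟩

theorem Dominated.mono {D D' : Divisor K F} (h : Dominated Dinf D') (hle : D ≤ D') :
    Dominated Dinf D := by
  obtain ⟨m, Z, z, hz, hZ, hZ0, hD⟩ := h
  exact ⟨m, Z, z, hz, hZ, hZ0, hle.trans hD⟩

theorem Dominated.add {D D' : Divisor K F} (h : Dominated Dinf D) (h' : Dominated Dinf D') :
    Dominated Dinf (D + D') := by
  obtain ⟨m, Z, z, hz, hZ, hZ0, hD⟩ := h
  obtain ⟨m', Z', z', hz', hZ', hZ0', hD'⟩ := h'
  refine ⟨m + m', Z + Z', z * z', mul_ne_zero hz hz', fun P => ?_, ?_, ?_⟩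
  · rw [Finsupp.add_apply, hZ, hZ', P.ord_mul hz hz']
  · rw [map_add, hZ0, hZ0', add_zero]
  · have := add_le_add hD hD'
    refine this.trans (le_of_eq ?_)
    rw [add_smul]
    abel

theorem Dominated.exists_ge (hDinf : ∀ P, 0 ≤ Dinf P) {D : Divisor K F} (h : Dominated Dinf D)
    (m₀ : ℕ) :
    ∃ (m : ℕ) (Z : Divisor K F) (z : F), m₀ ≤ m ∧ z ≠ 0 ∧ (∀ P, Z P = P.ord z) ∧
      Divisor.degree Z = 0 ∧ D ≤ m • Dinf + Z := by
  obtain ⟨m, Z, z, hz, hZ, hZ0, hD⟩ := h
  refine ⟨m + m₀, Z, z, Nat.le_add_left _ _, hz, hZ, hZ0, hD.trans ?_⟩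
  intro P
  simp only [Finsupp.add_apply, Finsupp.smul_apply, nsmul_eq_mul]
  have := hDinf P
  push_cast
  nlinarith

variable (hdeg : ∀ P : Place K F, P.deg = 1) (x : F) (hx : ∀ c : K, x ≠ algebraMap K F c)
  (hDinf : ∀ P, Dinf P = max 0 (-(P.ord x)))
  (hzero : ∀ c : K, ∃ D : Divisor K F,
    (∀ P, D P = max 0 (P.ord (x - algebraMap K F c))) ∧ Divisor.degree D = Divisor.degree Dinf)
include hdeg hx hDinf hzero

theorem dominated_single (P : Place K F) (a : ℤ) : Dominated Dinf (Finsupp.single P a) := by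
  rcases le_or_gt a 0 with ha | ha
  · refine dominated_zero.mono ?_
    intro Q
    by_cases hQ : Q = P
    · subst hQ; rw [Finsupp.single_eq_same]; exact ha
    · rw [Finsupp.single_eq_of_ne hQ]; rfl
  obtain ⟨k, rfl⟩ := Int.eq_ofNat_of_zero_le ha.le
  rcases lt_or_ge (P.ord x) 0 with hP | hP
  · refine ⟨k, 0, 1, one_ne_zero, fun Q => by simp, map_zero _, ?_⟩
    intro Q
    simp only [Finsupp.add_apply, Finsupp.smul_apply, nsmul_eq_mul, Finsupp.zero_apply, add_zero]
    by_cases hQ : Q = P
    · subst hQ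
      rw [Finsupp.single_eq_same, hDinf, max_eq_right (by omega)]
      nlinarith
    · rw [Finsupp.single_eq_of_ne hQ, hDinf]
      positivity
  · obtain ⟨c, hc⟩ := exists_const_sub_ord_pos P (hdeg P) hP hx
    obtain ⟨Zc, hZc, hZcdeg⟩ := hzero c
    have hxc : x - algebraMap K F c ≠ 0 := fun h0 => hx c (sub_eq_zero.mp h0)
    have hdivc : ∀ Q : Place K F, (Zc - Dinf) Q = Q.ord (x - algebraMap K F c) := by
      intro Q
      rw [Finsupp.sub_apply, hZc, hDinf]
      rcases lt_or_ge (Q.ord x) 0 with hQ | hQ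
      · rw [ord_sub_const_of_neg Q c hQ, max_eq_left hQ.le, max_eq_right (by omega)]
        omega
      · have := ord_sub_const_nonneg Q c hQ
        rw [max_eq_right this, max_eq_left (by omega)]
        omega
    refine ⟨k, k • (Zc - Dinf), (x - algebraMap K F c) ^ k, pow_ne_zero _ hxc, fun Q => ?_, ?_, ?_⟩
    · rw [Finsupp.smul_apply, hdivc, ← zpow_natCast, Q.ord_zpow, nsmul_eq_mul]
    · rw [map_nsmul, map_sub, hZcdeg, sub_self, smul_zero]
    · intro Q
      simp only [Finsupp.add_apply, Finsupp.smul_apply, nsmul_eq_mul, Finsupp.sub_apply]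
      have hZQ : 0 ≤ Zc Q := by rw [hZc]; exact le_max_left _ _
      by_cases hQ : Q = P
      · subst hQ
        have hZ1 : 1 ≤ Zc Q := by rw [hZc]; exact le_max_of_le_right (by omega)
        rw [Finsupp.single_eq_same]
        nlinarith
      · rw [Finsupp.single_eq_of_ne hQ]
        have : (0:ℤ) ≤ (k:ℤ) * Zc Q := by positivity
        linarith

theorem dominated_all (D : Divisor K F) : Dominated Dinf D := by
  induction D using Finsupp.induction with
  | zero => exact dominated_zero
  | single_add P a D _ _ ih =>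
    exact (dominated_single hdeg x hx hDinf hzero P a).add ih

end Dominated

section Main

/-- **Riemann's theorem in Prelude language from a chart.**  All places of degree one, `x` a
non-constant function with pole divisor `Dinf`, the zero divisors of `x - c` of the same degree,
and `L(m (x)_∞)` finite-dimensional of dimension `deg (x)_∞ * m + 1 - g` for `m ≥ m₀`.  Then every
`L(D)` is finite-dimensional, Riemann's inequality holds with the constant `g`, it is an equality
in large degree, and principal divisors have degree zero. -/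
theorem riemann_of_chart
    (hdeg : ∀ P : Place K F, P.deg = 1)
    (hdiv : ∀ f : F, f ≠ 0 → ∃ D : Divisor K F, ∀ P, D P = P.ord f)
    (x : F) (hx : ∀ c : K, x ≠ algebraMap K F c)
    (Dinf : Divisor K F) (hDinf : ∀ P, Dinf P = max 0 (-(P.ord x)))
    (hzero : ∀ c : K, ∃ D : Divisor K F,
      (∀ P, D P = max 0 (P.ord (x - algebraMap K F c))) ∧ Divisor.degree D = Divisor.degree Dinf)
    (g : ℕ) (hfin : ∀ m : ℕ, Module.Finite K (riemannRochSpace (m • Dinf)))
    (hdim : ∃ m₀ : ℕ, ∀ m : ℕ, m₀ ≤ m →
      (Module.finrank K (riemannRochSpace (m • Dinf)) : ℤ) = Divisor.degree Dinf * m + 1 - g) :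
    (∀ D : Divisor K F, Module.Finite K (riemannRochSpace D)) ∧
    (∀ D : Divisor K F, Divisor.degree D + 1 - g ≤ (Module.finrank K (riemannRochSpace D) : ℤ)) ∧
    (∃ c : ℤ, ∀ E : Divisor K F, c ≤ Divisor.degree E →
      (Module.finrank K (riemannRochSpace E) : ℤ) ≤ Divisor.degree E + 1 - g) ∧
    (∀ f : F, f ≠ 0 → ∀ D : Divisor K F, (∀ P, D P = P.ord f) → Divisor.degree D = 0) := by
  obtain ⟨m₀, hm₀⟩ := hdim
  have hDinf0 : ∀ P, 0 ≤ Dinf P := fun P => by rw [hDinf]; exact le_max_left _ _
  have key : ∀ D : Divisor K F, Module.Finite K (riemannRochSpace D) ∧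
      Divisor.degree D + 1 - g ≤ (Module.finrank K (riemannRochSpace D) : ℤ) := by
    intro D
    obtain ⟨m, Z, z, hm, hz, hZ, hZ0, hD⟩ :=
      (dominated_all hdeg x hx hDinf hzero D).exists_ge hDinf0 m₀
    have h1 := hfin m
    have h2 := hm₀ m hm
    have h3 : Module.Finite K (riemannRochSpace (m • Dinf + Z)) :=
      finite_rrSpace_add_principal hz hZ h1
    have h4 := finrank_rrSpace_add_principal (D := m • Dinf) hz hZ
    have hfinD : Module.Finite K (riemannRochSpace D) := by
      haveI := h3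
      exact Submodule.finiteDimensional_of_le (rrSpace_mono hD)
    obtain ⟨-, h5⟩ := rrSpace_le_of_le' hdeg hD hfinD
    refine ⟨hfinD, ?_⟩
    rw [h4, h2, map_sub, map_add, map_nsmul, hZ0] at h5
    simp only [nsmul_eq_mul] at h5
    linarith
  have hZ : ∀ f : F, f ≠ 0 → ∀ D : Divisor K F, (∀ P, D P = P.ord f) →
      Divisor.degree D = 0 := by
    intro f hf D hD
    by_contra hne
    have hs : ∀ s : ℤ, s * Divisor.degree D + 1 - g ≤
        (Module.finrank K (riemannRochSpace (0 : Divisor K F)) : ℤ) := by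
      intro s
      have h1 := (key (0 + s • D)).2
      have h2 := finrank_rrSpace_add_principal (D := (0 : Divisor K F)) (Z := s • D) (z := f ^ s)
        (zpow_ne_zero _ hf) (fun P => by rw [Finsupp.smul_apply, hD, P.ord_zpow, smul_eq_mul])
      rw [h2, zero_add, map_zsmul, smul_eq_mul] at h1
      exact h1
    have hnn : (0 : ℤ) ≤ (Module.finrank K (riemannRochSpace (0 : Divisor K F)) : ℤ) :=
      Nat.cast_nonneg _
    have hg : (0 : ℤ) ≤ (g : ℤ) := Nat.cast_nonneg _
    rcases lt_or_gt_of_ne hne with h | h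
    · have h1 := hs (-((Module.finrank K (riemannRochSpace (0 : Divisor K F)) : ℤ) + g))
      nlinarith [mul_nonneg (add_nonneg hnn hg) (show (0:ℤ) ≤ -Divisor.degree D - 1 by omega)]
    · have h1 := hs ((Module.finrank K (riemannRochSpace (0 : Divisor K F)) : ℤ) + g)
      nlinarith [mul_nonneg (add_nonneg hnn hg) (show (0:ℤ) ≤ Divisor.degree D - 1 by omega)]
  refine ⟨fun D => (key D).1, fun D => (key D).2, ⟨Divisor.degree Dinf * m₀ + g, ?_⟩, hZ⟩
  intro E hE
  have h1 := key (E - m₀ • Dinf)
  have hpos : 0 < Module.finrank K (riemannRochSpace (E - m₀ • Dinf)) := by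
    have h := h1.2
    rw [map_sub, map_nsmul, nsmul_eq_mul] at h
    have : (0:ℤ) < (Module.finrank K (riemannRochSpace (E - m₀ • Dinf)) : ℤ) := by linarith
    exact_mod_cast this
  haveI := h1.1
  obtain ⟨z', hz'⟩ := Module.finrank_pos_iff_exists_ne_zero.mp hpos
  have hz0 : (z' : F) ≠ 0 := fun h => hz' (Subtype.ext h)
  obtain ⟨Z, hZd⟩ := hdiv z' hz0
  have hZ0 := hZ _ hz0 Z hZd
  have hle : m₀ • Dinf ≤ E + Z := by
    intro P
    have := (mem_riemannRochSpace_iff.mp z'.2 P).resolve_left hz0
    rw [Finsupp.sub_apply] at this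
    rw [Finsupp.add_apply, hZd]
    omega
  obtain ⟨-, h2⟩ := rrSpace_le_of_le' hdeg hle (hfin m₀)
  rw [finrank_rrSpace_add_principal hz0 hZd, hm₀ m₀ le_rfl, map_sub, map_add, hZ0, map_nsmul,
    nsmul_eq_mul] at h2
  linarith

end Main

end Fermat.Agent.S37.RINB
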