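import Fermat.Agent.S37.RINB.RiemannGen
import Fermat.Agent.S18.RT

/-!
# RIN bind, Riemann side (2): Riemann's theorem in Prelude language from the frozen S18 RT exports

`K` algebraically closed, `x ∈ F` transcendental, `F / K(x)` finite separable.  For any `g` with
`dim Lx K x m = [F:K(x)] m + 1 - g` (`m ≫ 0`, clause 2 of `rt_riemann`):
every `riemannRochSpace D` is finite-dimensional, `deg D + 1 - g ≤ l(D)`, equality in large degree,
principal divisors have degree zero (hence `HasPrincipalDivisors K F`).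
-/

set_option autoImplicit false

noncomputable section

namespace Fermat.Agent.S37.RINB

open AlgebraicCurve IntermediateField Fermat.Agent.S18 Fermat.Agent.S24.A564

variable {K F : Type*} [Field K] [Field F] [Algebra K F]

theorem adjoin_inv_eq (x : F) : K⟮x⁻¹⟯ = K⟮x⟯ := by
  apply le_antisymm
  · rw [adjoin_simple_le_iff]
    exact inv_mem (mem_adjoin_simple_self K x)
  · rw [adjoin_simple_le_iff]
    have h := inv_mem (mem_adjoin_simple_self K x⁻¹)
    rwa [inv_inv] at h

theorem ord_mul_inv_pow (P : Place K F) {f x : F} (hf : f ≠ 0) (hx : x ≠ 0) (m : ℕ) :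
    P.ord (f * x⁻¹ ^ m) = P.ord f - m * P.ord x := by
  rw [P.ord_mul hf (pow_ne_zero _ (inv_ne_zero hx)), ← zpow_natCast, P.ord_zpow, P.ord_inv]
  ring

variable [IsAlgClosed K]
variable (x : F) (hx : Transcendental K x) [FiniteDimensional K⟮x⟯ F]
  [Algebra.IsSeparable K⟮x⟯ F]

include hx

/-- Chart form `Lx K x m` of `L(m (x)_∞)` = Prelude form. -/
theorem Lx_eq_rrSpace (Dinf : Divisor K F) (hDinf : ∀ P, Dinf P = max 0 (-(P.ord x))) (m : ℕ) :
    Lx K x m = riemannRochSpace (m • Dinf) := by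
  have hx0 : x ≠ 0 := fun h => hx (h ▸ isAlgebraic_zero)
  have e : K⟮x⁻¹⟯ = K⟮x⟯ := adjoin_inv_eq x
  have hx' : Transcendental K x⁻¹ := fun h => hx (by simpa using h.inv)
  haveI : FiniteDimensional K⟮x⁻¹⟯ F := by rw [e]; infer_instance
  haveI : Algebra.IsSeparable K⟮x⁻¹⟯ F := by rw [e]; infer_instance
  ext f
  rw [mem_riemannRochSpace_iff]
  constructor
  · rintro ⟨h1, h2⟩ P
    rcases eq_or_ne f 0 with hf | hf
    · exact Or.inl hf
    right
    rw [Finsupp.smul_apply, hDinf, nsmul_eq_mul]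
    rcases lt_or_ge (P.ord x) 0 with hP | hP
    · have h3 := rt_ord_nonneg_of_isIntegral x⁻¹ hx' P (by rw [P.ord_inv]; omega) _ h2
      rw [ord_mul_inv_pow P hf hx0] at h3
      rw [max_eq_right (by omega)]
      linarith
    · have h3 := rt_ord_nonneg_of_isIntegral x hx P hP f h1
      rw [max_eq_left (by omega)]
      simpa using h3
  · intro h
    rcases eq_or_ne f 0 with hf | hf
    · rw [hf]; exact zero_mem _
    refine ⟨rt_isIntegral_of_ord_nonneg x hx f fun P hP => ?_,
      rt_isIntegral_of_ord_nonneg x⁻¹ hx' _ fun P hP => ?_⟩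
    · have h3 := (h P).resolve_left hf
      rw [Finsupp.smul_apply, hDinf, nsmul_eq_mul, max_eq_left (by omega)] at h3
      simpa using h3
    · have h3 := (h P).resolve_left hf
      rw [P.ord_inv] at hP
      rw [Finsupp.smul_apply, hDinf, nsmul_eq_mul, max_eq_right (by omega)] at h3
      rw [ord_mul_inv_pow P hf hx0]
      linarith

/-- **Riemann's theorem in Prelude language** from the frozen RT exports. -/
theorem riemann_of_rt (g : ℕ) (hfin : ∀ m : ℕ, Module.Finite K (Lx K x m))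
    (hdim : ∃ m₀ : ℕ, ∀ m : ℕ, m₀ ≤ m →
      (Module.finrank K (Lx K x m) : ℤ) = (Module.finrank K⟮x⟯ F : ℤ) * m + 1 - g) :
    (∀ D : Divisor K F, Module.Finite K (riemannRochSpace D)) ∧
    (∀ D : Divisor K F, Divisor.degree D + 1 - g ≤ (Module.finrank K (riemannRochSpace D) : ℤ)) ∧
    (∃ c : ℤ, ∀ E : Divisor K F, c ≤ Divisor.degree E →
      (Module.finrank K (riemannRochSpace E) : ℤ) ≤ Divisor.degree E + 1 - g) ∧
    (∀ f : F, f ≠ 0 → ∀ D : Divisor K F, (∀ P, D P = P.ord f) → Divisor.degree D = 0) := by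
  obtain ⟨Dinf, hDinf, hdegDinf⟩ := rt_pole_divisor x hx
  have hxc : ∀ c : K, x ≠ algebraMap K F c := fun c h => hx (h ▸ isAlgebraic_algebraMap c)
  refine riemann_of_chart (rt_deg_eq_one x hx) (rt_exists_divisor x hx) x hxc Dinf hDinf
    (fun c => ?_) g (fun m => ?_) ?_
  · obtain ⟨D, hD, hDdeg⟩ := rt_zero_divisor x hx c
    exact ⟨D, hD, by rw [hDdeg, hdegDinf]⟩
  · rw [← Lx_eq_rrSpace x hx Dinf hDinf m]
    exact hfin m
  · obtain ⟨m₀, hm₀⟩ := hdim
    refine ⟨m₀, fun m hm => ?_⟩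
    rw [← Lx_eq_rrSpace x hx Dinf hDinf m, hm₀ m hm, hdegDinf]

/-- Principal divisors exist and have degree zero. -/
theorem hasPrincipalDivisors_of_rt : HasPrincipalDivisors K F := by
  obtain ⟨g, hfin, hdim, -, -⟩ := rt_riemann x hx
  obtain ⟨-, -, -, hZ⟩ := riemann_of_rt x hx g hfin hdim
  refine ⟨fun f hf => ?_⟩
  obtain ⟨D, hD⟩ := rt_exists_divisor x hx f hf
  exact ⟨D, hD, hZ f hf D hD⟩

/-- There is at least one place (a pole of `x`). -/
theorem nonempty_place_of_rt : Nonempty (Place K F) := by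
  obtain ⟨Dinf, hDinf, hdegDinf⟩ := rt_pole_divisor x hx
  by_contra hne
  rw [not_nonempty_iff] at hne
  have h0 : Dinf = 0 := Finsupp.ext fun P => (hne.false P).elim
  rw [h0, map_zero] at hdegDinf
  have hpos : 0 < Module.finrank K⟮x⟯ F := Module.finrank_pos
  omega

end Fermat.Agent.S37.RINB
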